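import Mathlib

/-!
# The Möbius/gcd order identity for route U of S28

`∑_{δ ∣ N} μ(N/δ) · gcd(δ, g)² = J₂(N)` if `N ∣ g` and `0` otherwise, where `J₂` is the Jordan
totient.  With `g = c_γ` this is the order at the cusp `γ(∞)` of the eta quotient
`∏_{δ ∣ N} Δ(δτ)^(δ·μ(N/δ))`.
-/

namespace Fermat.Agent.S28.RouteU.MoebiusOrder

open Finset ArithmeticFunction
open scoped ArithmeticFunction.Moebius

/-- The Jordan totient `J₂(n) = ∑_{d ∣ n} μ(n/d) d²`, as an integer. -/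
def jordan2 (n : ℕ) : ℤ :=
  ∑ x ∈ n.divisorsAntidiagonal, (μ x.fst : ℤ) * ((x.snd : ℤ) ^ 2)

theorem sum_divisors_jordan2 (n : ℕ) (hn : 0 < n) :
    ∑ i ∈ n.divisors, jordan2 i = (n : ℤ) ^ 2 := by
  have h := (sum_eq_iff_sum_mul_moebius_eq (R := ℤ) (f := jordan2)
    (g := fun n => (n : ℤ) ^ 2)).2 (fun n _ => rfl)
  exact h n hn

theorem filter_dvd_divisors (n g : ℕ) (hn : 0 < n) :
    n.divisors.filter (fun i => i ∣ g) = (Nat.gcd n g).divisors := by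
  ext i
  simp only [mem_filter, Nat.mem_divisors, Nat.dvd_gcd_iff]
  constructor
  · rintro ⟨⟨h1, _⟩, h2⟩
    exact ⟨⟨h1, h2⟩, (Nat.gcd_pos_of_pos_left g hn).ne'⟩
  · rintro ⟨⟨h1, h2⟩, _⟩
    exact ⟨⟨h1, hn.ne'⟩, h2⟩

theorem sum_divisors_ite_jordan2 (g n : ℕ) (hn : 0 < n) :
    ∑ i ∈ n.divisors, (if i ∣ g then jordan2 i else 0) = ((Nat.gcd n g : ℕ) : ℤ) ^ 2 := by
  rw [← sum_filter, filter_dvd_divisors n g hn,
    sum_divisors_jordan2 _ (Nat.gcd_pos_of_pos_left g hn)]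

/-- **The order identity.** -/
theorem sum_moebius_mul_gcd_sq (N g : ℕ) (hN : 0 < N) :
    ∑ x ∈ N.divisorsAntidiagonal, (μ x.fst : ℤ) * ((Nat.gcd x.snd g : ℕ) : ℤ) ^ 2 =
      if N ∣ g then jordan2 N else 0 := by
  have h := (sum_eq_iff_sum_mul_moebius_eq (R := ℤ)
    (f := fun i => if i ∣ g then jordan2 i else 0)
    (g := fun n => ((Nat.gcd n g : ℕ) : ℤ) ^ 2)).1 (fun n hn => sum_divisors_ite_jordan2 g n hn)
  exact h N hN

/-- At every cusp other than `∞` (i.e. `¬ N ∣ g`) the sum vanishes. -/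
theorem sum_moebius_mul_gcd_sq_of_not_dvd (N g : ℕ) (hN : 0 < N) (hg : ¬ N ∣ g) :
    ∑ x ∈ N.divisorsAntidiagonal, (μ x.fst : ℤ) * ((Nat.gcd x.snd g : ℕ) : ℤ) ^ 2 = 0 := by
  rw [sum_moebius_mul_gcd_sq N g hN, if_neg hg]

/-- The same with the sum over divisors `δ` of `N` and `μ (N / δ)`. -/
theorem sum_divisors_moebius_mul_gcd_sq (N g : ℕ) (hN : 0 < N) :
    ∑ δ ∈ N.divisors, (μ (N / δ) : ℤ) * ((Nat.gcd δ g : ℕ) : ℤ) ^ 2 =
      if N ∣ g then jordan2 N else 0 := by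
  rw [← sum_moebius_mul_gcd_sq N g hN, ← Nat.map_div_left_divisors, sum_map]
  simp

/-- `∑_{δ ∣ N} δ·μ(N/δ) = φ(N)`: the weight of `∏_{δ ∣ N} Δ(δτ)^(δ·μ(N/δ))` is `12·φ(N)`. -/
theorem sum_divisors_moebius_mul_self (N : ℕ) (hN : 0 < N) :
    ∑ δ ∈ N.divisors, (μ (N / δ) : ℤ) * (δ : ℤ) = (Nat.totient N : ℤ) := by
  have h := (sum_eq_iff_sum_mul_moebius_eq (R := ℤ) (f := fun i => (Nat.totient i : ℤ))
    (g := fun n => (n : ℤ))).1 (fun n _ => by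
      rw [← Nat.cast_sum, Nat.sum_totient])
  rw [← h N hN, ← Nat.map_div_left_divisors, sum_map]
  simp

end Fermat.Agent.S28.RouteU.MoebiusOrder
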